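import Mathlib
import Fermat.Prelude.Def_ModularForm_HeckeOperator
import Fermat.Prelude.Thm_CongruenceSubgroup_one_mem_strictPeriods_Gamma0
import Fermat.Agent.S23.Defs

set_option autoImplicit false

namespace Fermat.Agent.S23.H21

open UpperHalfPlane ModularForm CongruenceSubgroup Filter Topology Matrix.SpecialLinearGroup
open scoped MatrixGroups Manifold ModularForm

theorem mapGL_apply (γ : SL(2, ℤ)) (i j : Fin 2) :
    ((mapGL ℝ γ : GL (Fin 2) ℝ) : Matrix (Fin 2) (Fin 2) ℝ) i j = ((γ i j : ℤ) : ℝ) := rfl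

/-- An element of `SL(2,ℤ)` with prescribed entries. -/
theorem exists_SL_of_det (a b c d : ℤ) (h : a * d - b * c = 1) :
    ∃ γ : SL(2, ℤ), (γ : Matrix (Fin 2) (Fin 2) ℤ) = !![a, b; c, d] :=
  ⟨⟨!![a, b; c, d], by rw [Matrix.det_fin_two_of]; exact h⟩, rfl⟩

theorem SL_det_eq (γ : SL(2, ℤ)) : γ 0 0 * γ 1 1 - γ 0 1 * γ 1 0 = 1 := by
  have := γ.det_coe
  rw [Matrix.det_fin_two] at this
  exact this

/-- For `γ ∈ Γ₀(N)`, the conjugate `diag(N,1) γ diag(N,1)⁻¹`, as an element of `SL(2,ℤ)`. -/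
theorem exists_conj_of_mem_Gamma0 (N : ℕ) [NeZero N] (γ : SL(2, ℤ)) (hγ : γ ∈ Gamma0 N) :
    ∃ γ' : SL(2, ℤ), heckeDiagMatrix N * mapGL ℝ γ = mapGL ℝ γ' * heckeDiagMatrix N := by
  have hN : N ≠ 0 := NeZero.ne N
  rw [Gamma0_mem] at hγ
  obtain ⟨c', hc'⟩ : (N : ℤ) ∣ γ 1 0 := (ZMod.intCast_zmod_eq_zero_iff_dvd _ _).mp hγ
  have hdet := SL_det_eq γ
  obtain ⟨γ', hγ'⟩ := exists_SL_of_det (γ 0 0) (N * γ 0 1) c' (γ 1 1) (by rw [hc'] at hdet; linarith)
  refine ⟨γ', ?_⟩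
  apply Units.ext
  ext i j
  have hc'' : ((γ 1 0 : ℤ) : ℝ) = (N : ℝ) * (c' : ℝ) := by rw [hc']; push_cast; ring
  simp only [Units.val_mul, Matrix.mul_apply, Fin.sum_univ_two, mapGL_apply, val_heckeDiagMatrix hN,
    hγ']
  fin_cases i <;> fin_cases j <;> simp [hc''] <;> ring


open ConjAct Pointwise in
theorem Gamma0_le_conj (N : ℕ) [NeZero N] :
    ((Gamma0 N : Subgroup SL(2, ℤ)) : Subgroup (GL (Fin 2) ℝ)) ≤
      toConjAct (heckeDiagMatrix N)⁻¹ • 𝒮ℒ := by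
  rintro _ ⟨γ, hγ, rfl⟩
  rw [map_inv, Subgroup.mem_inv_pointwise_smul_iff, toConjAct_smul]
  obtain ⟨γ', hγ'⟩ := exists_conj_of_mem_Gamma0 N γ hγ
  exact ⟨γ', by rw [eq_mul_inv_iff_mul_eq]; exact hγ'.symm⟩

open ConjAct Pointwise in
/-- The function `z ↦ N³ E₄(N z)` as a modular form of weight 4 on `Γ₀(N)`. -/
noncomputable def sepFormAux (N : ℕ) [NeZero N] : ModularForm (Gamma0 N) 4 where
  toFun := (E₄ : ℍ → ℂ) ∣[(4 : ℤ)] heckeDiagMatrix N
  slash_action_eq' γ hγ :=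
    (ModularForm.translate E₄ (heckeDiagMatrix N)).slash_action_eq' γ (Gamma0_le_conj N hγ)
  holo' := (ModularForm.translate E₄ (heckeDiagMatrix N)).holo'
  bdd_at_cusps' hc :=
    (ModularForm.translate E₄ (heckeDiagMatrix N)).bdd_at_cusps' (hc.mono (Gamma0_le_conj N))

theorem sepFormAux_coe (N : ℕ) [NeZero N] :
    (sepFormAux N : ℍ → ℂ) = (E₄ : ℍ → ℂ) ∣[(4 : ℤ)] heckeDiagMatrix N := rfl

theorem sepFormAux_apply (N : ℕ) [NeZero N] (z : ℍ) :
    sepFormAux N z = (N : ℂ) ^ 3 * E₄ (heckeDiagMatrix N • z) := by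
  rw [sepFormAux_coe, slash_heckeDiagMatrix_apply 4 (NeZero.ne N)]
  norm_num

/-- The separating form `z ↦ E₄(N z)`, a modular form of weight 4 on `Γ₀(N)`. -/
noncomputable def sepForm (N : ℕ) [NeZero N] : ModularForm (Gamma0 N) 4 :=
  ((N : ℂ)⁻¹ ^ 3) • sepFormAux N

theorem sepForm_apply (N : ℕ) [NeZero N] (z : ℍ) :
    sepForm N z = E₄ (heckeDiagMatrix N • z) := by
  have hN : (N : ℂ) ≠ 0 := by exact_mod_cast NeZero.ne N
  show ((N : ℂ)⁻¹ ^ 3) • sepFormAux N z = _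
  rw [sepFormAux_apply, smul_eq_mul]
  field_simp


open Function in
theorem qParam_heckeDiag (N : ℕ) [NeZero N] (τ : ℍ) :
    Periodic.qParam 1 ((heckeDiagMatrix N • τ : ℍ) : ℂ) = Periodic.qParam 1 (τ : ℂ) ^ N := by
  rw [Periodic.qParam, Periodic.qParam, coe_heckeDiagMatrix_smul (NeZero.ne N), ← Complex.exp_nat_mul]
  congr 1
  push_cast
  ring

open Function in
theorem hasSum_sepForm (N : ℕ) [NeZero N] (τ : ℍ) :
    HasSum (fun m : ℕ => (if N ∣ m then (qExpansion 1 E₄).coeff (m / N) else 0) •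
      Periodic.qParam 1 (τ : ℂ) ^ m) (sepForm N τ) := by
  have hN : 0 < N := Nat.pos_of_ne_zero (NeZero.ne N)
  have h1 := ModularForm.hasSum_qExpansion (f := E₄) one_pos one_mem_strictPeriods_SL
    (heckeDiagMatrix N • τ)
  rw [← sepForm_apply] at h1
  have hinj : Function.Injective (fun m : ℕ => N * m) := fun a b h => by
    exact Nat.eq_of_mul_eq_mul_left hN h
  rw [← hinj.hasSum_iff]
  · convert h1 using 2 with m
    simp only [Function.comp_apply, Nat.dvd_mul_right, if_true, Nat.mul_div_cancel_left _ hN,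
      qParam_heckeDiag, smul_eq_mul, ← pow_mul]
  · intro m hm
    have : ¬ N ∣ m := fun ⟨k, hk⟩ => hm ⟨k, hk.symm⟩
    simp [this]

theorem qExpansion_sepForm_coeff (N : ℕ) [NeZero N] (m : ℕ) :
    (qExpansion 1 (sepForm N)).coeff m =
      if N ∣ m then (qExpansion 1 E₄).coeff (m / N) else 0 :=
  (ModularFormClass.qExpansion_coeff_unique one_pos
    (CongruenceSubgroup.one_mem_strictPeriods_Gamma0 N) (hasSum_sepForm N) m).symm


theorem E4_coeff_int (m : ℕ) : ∃ n : ℤ, (qExpansion 1 E₄).coeff m = (n : ℂ) := by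
  rw [EisensteinSeries.E_qExpansion_coeff _ ⟨2, rfl⟩]
  split_ifs
  · exact ⟨1, by simp⟩
  · refine ⟨240 * (ArithmeticFunction.sigma 3 m : ℕ), ?_⟩
    norm_num [show bernoulli 4 = -1 / 30 by decide +kernel]

theorem sepForm_coeff_int (N : ℕ) [NeZero N] (m : ℕ) :
    ∃ n : ℤ, (qExpansion 1 (sepForm N)).coeff m = (n : ℂ) := by
  rw [qExpansion_sepForm_coeff]
  split_ifs
  · exact E4_coeff_int _
  · exact ⟨0, by simp⟩

theorem sepForm_coeff_zero (N : ℕ) [NeZero N] : (qExpansion 1 (sepForm N)).coeff 0 = 1 := by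
  rw [qExpansion_sepForm_coeff]
  simp [EisensteinSeries.E_qExpansion_coeff_zero _ ⟨2, rfl⟩]

/-- Coset decomposition: `diag(N,1) δ = δ' [[A,B],[0,D]]` with `A D = N`. -/
theorem exists_decomp (N : ℕ) [NeZero N] (δ : SL(2, ℤ)) :
    ∃ (δ' : SL(2, ℤ)) (A D : ℕ) (B : ℤ) (hAD : (A : ℝ) * (D : ℝ) ≠ 0),
      A * D = N ∧ (D = 1 ↔ δ ∈ Gamma0 N) ∧
      heckeDiagMatrix N * mapGL ℝ δ = mapGL ℝ δ' * upperTriangularGL A B D hAD := by
  have hN : N ≠ 0 := NeZero.ne N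
  obtain ⟨a, ha⟩ : ∃ a, a = δ 0 0 := ⟨_, rfl⟩
  obtain ⟨b, hb⟩ : ∃ b, b = δ 0 1 := ⟨_, rfl⟩
  obtain ⟨c, hc⟩ : ∃ c, c = δ 1 0 := ⟨_, rfl⟩
  obtain ⟨d, hd⟩ : ∃ d, d = δ 1 1 := ⟨_, rfl⟩
  have hdet : a * d - b * c = 1 := by rw [ha, hb, hc, hd]; exact SL_det_eq δ
  obtain ⟨e, he⟩ : ∃ e : ℕ, e = Int.gcd c N := ⟨_, rfl⟩
  have he_pos : 0 < e := by
    rw [he]; exact Int.gcd_pos_of_ne_zero_right _ (by exact_mod_cast hN)
  obtain ⟨D, hD⟩ : e ∣ N := by
    have := Int.gcd_dvd_right c N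
    rw [← he] at this
    exact_mod_cast this
  obtain ⟨c', hc'⟩ : (e : ℤ) ∣ c := by rw [he]; exact Int.gcd_dvd_left c N
  have hDpos : 0 < D := by
    rcases Nat.eq_zero_or_pos D with h | h
    · rw [h, mul_zero] at hD; exact absurd hD hN
    · exact h
  have hDz : (N : ℤ) = e * D := by exact_mod_cast hD
  have hcop1 : IsCoprime c' (D : ℤ) := by
    have hbz := Int.gcd_eq_gcd_ab c N
    rw [← he] at hbz
    refine ⟨Int.gcdA c N, Int.gcdB c N, ?_⟩
    have he0 : (e : ℤ) ≠ 0 := by exact_mod_cast he_pos.ne'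
    apply mul_left_cancel₀ he0
    rw [mul_one]
    linear_combination (-Int.gcdA c N) * hc' - (Int.gcdB c N) * hDz - hbz
  have hcop2 : IsCoprime c' a := ⟨-b * e, d, by rw [hc'] at hdet; linear_combination hdet⟩
  have hcop : IsCoprime ((D : ℤ) * a) c' := hcop1.symm.mul_left hcop2.symm
  obtain ⟨d', b'', hbez⟩ := hcop
  obtain ⟨δ', hδ'⟩ := exists_SL_of_det (D * a) (-b'') c' d' (by linear_combination hbez)
  have hAD : (e : ℝ) * (D : ℝ) ≠ 0 := by
    have : (0 : ℝ) < (e : ℝ) * (D : ℝ) := by positivity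
    exact this.ne'
  refine ⟨δ', e, D, d' * N * b + b'' * d, hAD, hD.symm, ?_, ?_⟩
  · rw [Gamma0_mem, ← hc, ZMod.intCast_zmod_eq_zero_iff_dvd]
    constructor
    · intro h1
      rw [h1, mul_one] at hD
      rw [hD, he]
      exact Int.gcd_dvd_left c N
    · intro hdvd
      have h2 : Int.gcd c N = N := by
        have := Int.gcd_eq_right (a := c) (b := (N : ℤ)) (by positivity) hdvd
        simpa using this
      rw [← he] at h2
      rw [h2] at hD
      exact (Nat.eq_of_mul_eq_mul_left (Nat.pos_of_ne_zero hN) (by rw [mul_one]; exact hD.symm))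
  · have hdetR : (a : ℝ) * d - b * c = 1 := by exact_mod_cast hdet
    have hcR : (c : ℝ) = e * c' := by exact_mod_cast hc'
    have hDR : (N : ℝ) = e * D := by exact_mod_cast hDz
    have hbezR : (d' : ℝ) * (D * a) + b'' * c' = 1 := by exact_mod_cast hbez
    apply Units.ext
    ext i j
    simp only [Units.val_mul, Matrix.mul_apply, Fin.sum_univ_two, mapGL_apply,
      val_heckeDiagMatrix hN, val_upperTriangularGL, hδ']
    fin_cases i <;> fin_cases j
    · simp [← ha]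
      linear_combination (a : ℝ) * hDR
    · simp [← hb, ← hd]
      linear_combination ((b : ℝ) * b'' * c') * hDR - ((b : ℝ) * b'' * D) * hcR
        - ((N : ℝ) * b) * hbezR - ((D : ℝ) * b'') * hdetR
    · simp [← hc]
      linear_combination hcR
    · simp [← hb, ← hd]
      linear_combination ((d' : ℝ) * D) * hdetR + ((d' : ℝ) * b * D) * hcR
        - ((d' : ℝ) * c' * b) * hDR - (d : ℝ) * hbezR


theorem det_upperTriangularGL (a b d : ℝ) (h : a * d ≠ 0) :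
    ((upperTriangularGL a b d h).det : ℝ) = a * d := by
  rw [Matrix.GeneralLinearGroup.val_det_apply, val_upperTriangularGL, Matrix.det_fin_two_of]
  ring

theorem denom_upperTriangularGL (a b d : ℝ) (h : a * d ≠ 0) (τ : ℍ) :
    denom (upperTriangularGL a b d h) τ = d := by
  simp [UpperHalfPlane.denom, val_upperTriangularGL]

theorem im_upperTriangularGL_smul {a b d : ℝ} (ha : 0 < a) (hd : 0 < d) (h : a * d ≠ 0) (τ : ℍ) :
    (upperTriangularGL a b d h • τ).im = a / d * τ.im := by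
  rw [UpperHalfPlane.im_smul_eq_div_normSq, det_upperTriangularGL, denom_upperTriangularGL,
    abs_of_pos (mul_pos ha hd), Complex.normSq_ofReal]
  field_simp

theorem tendsto_upperTriangularGL_smul {a b d : ℝ} (ha : 0 < a) (hd : 0 < d) (h : a * d ≠ 0) :
    Tendsto (fun τ : ℍ => upperTriangularGL a b d h • τ) atImInfty atImInfty := by
  rw [atImInfty, tendsto_comap_iff]
  have : (im ∘ fun τ : ℍ => upperTriangularGL a b d h • τ) = fun τ => a / d * τ.im := by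
    ext τ
    exact im_upperTriangularGL_smul ha hd h τ
  rw [this]
  exact Tendsto.const_mul_atTop (div_pos ha hd) tendsto_comap

theorem slash_upperTriangularGL_apply (k : ℤ) {a b d : ℝ} (ha : 0 < a) (hd : 0 < d)
    (h : a * d ≠ 0) (f : ℍ → ℂ) (τ : ℍ) :
    (f ∣[k] upperTriangularGL a b d h) τ =
      f (upperTriangularGL a b d h • τ) * ((a * d : ℝ) : ℂ) ^ (k - 1) * (d : ℂ) ^ (-k) := by
  have hσ : UpperHalfPlane.σ (upperTriangularGL a b d h) = .refl ℝ ℂ := by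
    rw [UpperHalfPlane.σ, if_pos (by rw [det_upperTriangularGL]; exact mul_pos ha hd)]
  rw [ModularForm.slash_apply, denom_upperTriangularGL, det_upperTriangularGL,
    abs_of_pos (mul_pos ha hd), hσ]
  rfl

theorem tendsto_E4 : Tendsto (E₄ : ℍ → ℂ) atImInfty (𝓝 1) := by
  have han := ModularFormClass.analyticAt_cuspFunction_zero E₄ one_pos one_mem_strictPeriods_SL
  have h0 : cuspFunction 1 E₄ 0 = 1 := by
    have := EisensteinSeries.E_qExpansion_coeff_zero (k := 4) (by norm_num) ⟨2, rfl⟩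
    rw [qExpansion_coeff] at this
    simpa using this
  have h1 := han.continuousAt.tendsto.comp (qParam_tendsto_atImInfty one_pos)
  rw [h0] at h1
  refine h1.congr fun τ => ?_
  exact SlashInvariantFormClass.eq_cuspFunction E₄ τ one_mem_strictPeriods_SL one_ne_zero

/-- The translates of the separating form have limits `D⁻⁴` at `i∞`, where `D ∣ N` and
`D = 1` exactly for `δ ∈ Γ₀(N)`. -/
theorem tendsto_sepForm_slash (N : ℕ) [NeZero N] (δ : SL(2, ℤ)) :
    ∃ D : ℕ, 0 < D ∧ D ∣ N ∧ (D = 1 ↔ δ ∈ Gamma0 N) ∧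
      Tendsto ((sepForm N : ℍ → ℂ) ∣[(4 : ℤ)] δ) atImInfty (𝓝 (((D : ℂ)⁻¹) ^ 4)) := by
  obtain ⟨δ', A, D, B, hAD, hN, hiff, hmat⟩ := exists_decomp N δ
  have hN0 : N ≠ 0 := NeZero.ne N
  have hApos : 0 < A := by
    rcases Nat.eq_zero_or_pos A with h | h
    · rw [h, zero_mul] at hN; exact absurd hN.symm hN0
    · exact h
  have hDpos : 0 < D := by
    rcases Nat.eq_zero_or_pos D with h | h
    · rw [h, mul_zero] at hN; exact absurd hN.symm hN0
    · exact h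
  have hAR : (0 : ℝ) < A := by exact_mod_cast hApos
  have hDR : (0 : ℝ) < D := by exact_mod_cast hDpos
  refine ⟨D, hDpos, ⟨A, by rw [mul_comm]; exact hN.symm⟩, hiff, ?_⟩
  have key : (sepForm N : ℍ → ℂ) ∣[(4 : ℤ)] δ =
      fun τ => ((D : ℂ)⁻¹) ^ 4 * E₄ (upperTriangularGL A B D hAD • τ) := by
    have h1 : (sepForm N : ℍ → ℂ) =
        ((N : ℂ)⁻¹ ^ 3) • ((E₄ : ℍ → ℂ) ∣[(4 : ℤ)] heckeDiagMatrix N) := rfl
    have h2 : (E₄ : ℍ → ℂ) ∣[(4 : ℤ)] (mapGL ℝ δ') = E₄ :=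
      SlashInvariantFormClass.slash_action_eq E₄ _ ⟨δ', rfl⟩
    have h3 : ((E₄ : ℍ → ℂ) ∣[(4 : ℤ)] heckeDiagMatrix N) ∣[(4 : ℤ)] δ =
        ((E₄ : ℍ → ℂ) ∣[(4 : ℤ)] heckeDiagMatrix N) ∣[(4 : ℤ)] (mapGL ℝ δ) := rfl
    rw [h1, ModularForm.SL_smul_slash, h3, ← SlashAction.slash_mul, hmat,
      SlashAction.slash_mul, h2]
    ext τ
    rw [Pi.smul_apply, slash_upperTriangularGL_apply 4 hAR hDR hAD, smul_eq_mul]
    have hNC : (N : ℂ) = (A : ℂ) * (D : ℂ) := by exact_mod_cast hN.symm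
    have hA0 : (A : ℂ) ≠ 0 := by exact_mod_cast hApos.ne'
    have hD0 : (D : ℂ) ≠ 0 := by exact_mod_cast hDpos.ne'
    rw [hNC]
    push_cast
    norm_num
    field_simp
  rw [key]
  have := ((tendsto_E4.comp (tendsto_upperTriangularGL_smul (b := B) hAR hDR hAD)).const_mul
    (((D : ℂ)⁻¹) ^ 4))
  simpa using this

/-- The separating property: the translate of `sepForm N` by `δ ∉ Γ₀(N)` differs from it. -/
theorem sepForm_slash_ne (N : ℕ) [NeZero N] (δ : SL(2, ℤ)) (hδ : δ ∉ Gamma0 N) :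
    (sepForm N : ℍ → ℂ) ∣[(4 : ℤ)] δ ≠ (sepForm N : ℍ → ℂ) := by
  intro heq
  obtain ⟨D, hDpos, -, hiff, hD⟩ := tendsto_sepForm_slash N δ
  obtain ⟨D₁, -, -, hiff₁, hD₁⟩ := tendsto_sepForm_slash N 1
  have hD1 : D₁ = 1 := hiff₁.mpr (Subgroup.one_mem _)
  rw [SlashAction.slash_one, hD1] at hD₁
  rw [heq] at hD
  have huniq := tendsto_nhds_unique hD hD₁
  have hDne : D ≠ 1 := fun h => hδ (hiff.mp h)
  have hD2 : (2 : ℝ) ≤ D := by
    have : 2 ≤ D := by omega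
    exact_mod_cast this
  have huniq' : ((D : ℂ)⁻¹) ^ 4 = 1 := by simpa using huniq
  have h4 : ((D : ℝ)⁻¹) ^ 4 = 1 := by
    apply Complex.ofReal_injective
    push_cast
    exact huniq'
  have h5 : ((D : ℝ)⁻¹) < 1 := by
    rw [inv_lt_one₀ (by linarith)]
    linarith
  have h6 : ((D : ℝ)⁻¹) ^ 4 < 1 := pow_lt_one₀ (by positivity) h5 (by norm_num)
  linarith


theorem bddDenom_sepForm (N : ℕ) [NeZero N] : BddDenom (qExpansion 1 (sepForm N)) := by
  choose a ha using sepForm_coeff_int N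
  refine ⟨1, one_pos, PowerSeries.mk a, ?_⟩
  ext m
  simp [ha m]

/-- Package P3 of the S23 plan, in exactly the shape requested by the coordinator. -/
theorem exists_separating (N : ℕ) [NeZero N] :
    ∃ g : ModularForm (Gamma0 N) 4, BddDenom (qExpansion 1 g) ∧
      ∀ γ : SL(2, ℤ), γ ∉ Gamma0 N → (g : ℍ → ℂ) ∣[(4 : ℤ)] γ ≠ (g : ℍ → ℂ) :=
  ⟨sepForm N, bddDenom_sepForm N, sepForm_slash_ne N⟩

end Fermat.Agent.S23.H21
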