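import Fermat.Agent.S23.H21.SepForm

set_option autoImplicit false

namespace Fermat.Agent.S23.H21

open UpperHalfPlane ModularForm CongruenceSubgroup SlashInvariantForm Matrix.SpecialLinearGroup
open scoped MatrixGroups Manifold ModularForm

/-- Bridge from the `SL(2,ℤ)`-shaped separation property to the `quotientFunc`-shaped hypothesis of
`diffFun_ne_zero`. -/
theorem quotientFunc_ne_of_slash_ne (N : ℕ) {k : ℤ}
    (g : ModularForm (Gamma0 N) k)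
    (hg : ∀ γ : SL(2, ℤ), γ ∉ Gamma0 N → (g : ℍ → ℂ) ∣[k] γ ≠ (g : ℍ → ℂ)) :
    ∀ q : 𝒮ℒ ⧸ (((Gamma0 N : Subgroup SL(2, ℤ)) : Subgroup (GL (Fin 2) ℝ)).subgroupOf 𝒮ℒ),
      q ≠ QuotientGroup.mk (1 : 𝒮ℒ) → quotientFunc g q ≠ (g : ℍ → ℂ) := by
  intro q
  induction q using Quotient.inductionOn with
  | h r =>
    obtain ⟨h, δ, rfl⟩ := r
    intro hne
    have hδ : δ⁻¹ ∉ Gamma0 N := by
      intro hmem
      apply hne
      have hmem' : δ ∈ Gamma0 N := by simpa using inv_mem hmem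
      symm
      rw [QuotientGroup.eq]
      rw [Subgroup.mem_subgroupOf]
      simp only [inv_one, one_mul]
      exact ⟨δ, hmem', rfl⟩
    have h1 : (g : ℍ → ℂ) ∣[k] δ⁻¹ = (g : ℍ → ℂ) ∣[k] (mapGL ℝ δ)⁻¹ := by
      show (g : ℍ → ℂ) ∣[k] (mapGL ℝ δ⁻¹) = _
      rw [map_inv]
    rw [quotientFunc_mk, ← h1]
    exact hg δ⁻¹ hδ

/-- The separating form in the `quotientFunc` language. -/
theorem sepForm_quotientFunc_ne (N : ℕ) [NeZero N] :
    ∀ q : 𝒮ℒ ⧸ (((Gamma0 N : Subgroup SL(2, ℤ)) : Subgroup (GL (Fin 2) ℝ)).subgroupOf 𝒮ℒ),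
      q ≠ QuotientGroup.mk (1 : 𝒮ℒ) → quotientFunc (sepForm N) q ≠ (sepForm N : ℍ → ℂ) :=
  quotientFunc_ne_of_slash_ne N (sepForm N) (sepForm_slash_ne N)

end Fermat.Agent.S23.H21
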